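import Fermat.Agent.ModDeg.General

/-!
# The Atkin–Lehner automorphism `w_p` of the function field of `X₀(N p)`, `p ∤ N`

`K` algebraically closed, `(N p : K) ≠ 0`.  We construct `AL.w : F_{Np} ≃ₐ[K] F_{Np}` with
`w (j(q^d)) = j(q^{dp})`, `w (j(q^{dp})) = j(q^d)` for `d ∣ N`.
-/

set_option autoImplicit false

noncomputable section

open ModularCurve Fermat.Agent.ModPoly Polynomial IntermediateField

namespace Fermat.Agent.AtkinLehner

open Fermat.Agent.ModDeg

section Ext

variable {K : Type*} [Field K] {N : ℕ}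

/-- Homomorphisms from the modular function field are determined by constants and the `j_d`. -/
theorem ringHom_ext {M : Type*} [Field M]
    (f g : modularFunctionFieldFullC K N →+* M)
    (hK : ∀ c : K, f (algebraMap K _ c) = g (algebraMap K _ c))
    (hj : ∀ d (hd : d ∣ N) (hd0 : d ≠ 0), f ⟨vj K d, vj_mem_full K hd0 hd⟩ =
      g ⟨vj K d, vj_mem_full K hd0 hd⟩) : f = g := by
  have key : ∀ x, x ∈ IntermediateField.adjoin K (divisorExpansionsC K N) →
      ∀ h : x ∈ modularFunctionFieldFullC K N, f ⟨x, h⟩ = g ⟨x, h⟩ := by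
    intro x hx
    induction hx using IntermediateField.adjoin_induction with
    | mem x hx =>
      obtain ⟨d, hd, hdN, rfl⟩ := hx
      intro h
      have := hj d hdN hd.out
      have e : (⟨vj K d, vj_mem_full K hd.out hdN⟩ : modularFunctionFieldFullC K N) =
          ⟨qExpand K d (jqModC K), h⟩ := Subtype.ext (vj_eq K d)
      rwa [e] at this
    | algebraMap c => intro h; exact hK c
    | add x y hx hy ihx ihy =>
      intro h
      have hx' : x ∈ modularFunctionFieldFullC K N := hx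
      have hy' : y ∈ modularFunctionFieldFullC K N := hy
      have e : (⟨x + y, h⟩ : modularFunctionFieldFullC K N) = ⟨x, hx'⟩ + ⟨y, hy'⟩ := rfl
      rw [e, map_add, map_add, ihx, ihy]
    | inv x hx ihx =>
      intro h
      have hx' : x ∈ modularFunctionFieldFullC K N := hx
      have e : (⟨x⁻¹, h⟩ : modularFunctionFieldFullC K N) = (⟨x, hx'⟩)⁻¹ := rfl
      rw [e, map_inv₀, map_inv₀, ihx]
    | mul x y hx hy ihx ihy =>
      intro h
      have hx' : x ∈ modularFunctionFieldFullC K N := hx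
      have hy' : y ∈ modularFunctionFieldFullC K N := hy
      have e : (⟨x * y, h⟩ : modularFunctionFieldFullC K N) = ⟨x, hx'⟩ * ⟨y, hy'⟩ := rfl
      rw [e, map_mul, map_mul, ihx, ihy]
  ext x
  exact key x x.2 x.2

/-- A homomorphism on `F_N` that maps generators into a subfield maps everything into it. -/
theorem ringHom_mem {M : Type*} [Field M] (f : modularFunctionFieldFullC K N →+* M)
    (S : Subfield M) (hK : ∀ c : K, f (algebraMap K _ c) ∈ S)
    (hj : ∀ d (hd : d ∣ N) (hd0 : d ≠ 0), f ⟨vj K d, vj_mem_full K hd0 hd⟩ ∈ S)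
    (x : modularFunctionFieldFullC K N) : f x ∈ S := by
  have key : ∀ x, x ∈ IntermediateField.adjoin K (divisorExpansionsC K N) →
      ∀ h : x ∈ modularFunctionFieldFullC K N, f ⟨x, h⟩ ∈ S := by
    intro x hx
    induction hx using IntermediateField.adjoin_induction with
    | mem x hx =>
      obtain ⟨d, hd, hdN, rfl⟩ := hx
      intro h
      have := hj d hdN hd.out
      have e : (⟨vj K d, vj_mem_full K hd.out hdN⟩ : modularFunctionFieldFullC K N) =
          ⟨qExpand K d (jqModC K), h⟩ := Subtype.ext (vj_eq K d)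
      rwa [e] at this
    | algebraMap c => intro h; exact hK c
    | add x y hx hy ihx ihy =>
      intro h
      have hx' : x ∈ modularFunctionFieldFullC K N := hx
      have hy' : y ∈ modularFunctionFieldFullC K N := hy
      have e : (⟨x + y, h⟩ : modularFunctionFieldFullC K N) = ⟨x, hx'⟩ + ⟨y, hy'⟩ := rfl
      rw [e, map_add]
      exact add_mem (ihx _) (ihy _)
    | inv x hx ihx =>
      intro h
      have hx' : x ∈ modularFunctionFieldFullC K N := hx
      have e : (⟨x⁻¹, h⟩ : modularFunctionFieldFullC K N) = (⟨x, hx'⟩)⁻¹ := rfl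
      rw [e, map_inv₀]
      exact inv_mem (ihx _)
    | mul x y hx hy ihx ihy =>
      intro h
      have hx' : x ∈ modularFunctionFieldFullC K N := hx
      have hy' : y ∈ modularFunctionFieldFullC K N := hy
      have e : (⟨x * y, h⟩ : modularFunctionFieldFullC K N) = ⟨x, hx'⟩ * ⟨y, hy'⟩ := rfl
      rw [e, map_mul]
      exact mul_mem (ihx _) (ihy _)
  exact key x x.2 x.2

end Ext

variable {K : Type*} [Field K] [IsAlgClosed K] {N p : ℕ} [hp : Fact p.Prime]

omit [IsAlgClosed K] in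
theorem h1_injective : Function.Injective (hs (1 : ℚ) one_pos (1 : Kˣ)) :=
  (hs (1 : ℚ) one_pos (1 : Kˣ)).injective

/-- A common root of `Φ_ℓ(j_a, X)` and `Φ_p(j_{aℓp}, X)` is `j_{aℓ}`. -/
theorem eq_vj_of_roots (hpK : (p : K) ≠ 0) {a ℓ : ℕ} (ha : a ≠ 0) [hℓ : Fact ℓ.Prime]
    (hℓK : (ℓ : K) ≠ 0) {z : LaurentSeries K}
    (h1 : (phi ℓ (vj K a)).eval z = 0) (h2 : (phi p (vj K (a * ℓ * p))).eval z = 0) :
    z = vj K (a * ℓ) := by
  obtain ⟨w, hw⟩ := exists_primitiveRoot_unit hℓ.out hℓK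
  obtain ⟨v, hv⟩ := exists_primitiveRoot_unit hp.out hpK
  have hℓpos : (0 : ℚ) < ℓ := by exact_mod_cast hℓ.out.pos
  have hppos : (0 : ℚ) < p := by exact_mod_cast hp.out.pos
  have hapos : (0 : ℚ) < a := by exact_mod_cast Nat.pos_of_ne_zero ha
  have hℓ2 : (2 : ℚ) ≤ ℓ := by exact_mod_cast hℓ.out.two_le
  have hp2 : (2 : ℚ) ≤ p := by exact_mod_cast hp.out.two_le
  have haℓ : a * ℓ ≠ 0 := mul_ne_zero ha hℓ.out.ne_zero
  have haℓp : a * ℓ * p ≠ 0 := mul_ne_zero haℓ hp.out.ne_zero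
  have hs_one_vj : ∀ {d : ℕ} (hd : d ≠ 0),
      hs (1 : ℚ) one_pos 1 (vj K d) = hs (d : ℚ) (by exact_mod_cast Nat.pos_of_ne_zero hd) 1
        (jqModC K) := fun hd => hs_vj hd _
  set y := hs (1 : ℚ) one_pos (1 : Kˣ) z with hy
  have e1 : (phi ℓ (RingHom.id (HahnSeries ℚ K) (hs (a : ℚ) hapos 1 (jqModC K)))).eval y = 0 := by
    rw [RingHom.id_apply, ← hs_one_vj ha, ← phi_map, Polynomial.eval_map, hy,
      Polynomial.eval₂_hom, h1, map_zero]
  have e2 : (phi p (RingHom.id (HahnSeries ℚ K) (hs ((a * ℓ * p : ℕ) : ℚ)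
      (by exact_mod_cast Nat.pos_of_ne_zero haℓp) 1 (jqModC K)))).eval y = 0 := by
    rw [RingHom.id_apply, ← hs_one_vj haℓp, ← phi_map, Polynomial.eval_map, hy,
      Polynomial.eval₂_hom, h2, map_zero]
  have r1 := eval_phi_hs_eq_zero hw (RingHom.id _) (η := 1) (by rw [one_pow]) e1
  have r2 := eval_phi_hs_eq_zero hv (RingHom.id _) (η := 1) (by rw [one_pow]) e2
  simp only [RingHom.id_apply] at r1 r2
  apply h1_injective
  rw [hs_one_vj haℓ]
  rcases r1 with r1 | ⟨b, r1⟩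
  · rw [← hy, r1]
    exact hs_congr _ (by push_cast; ring) _ _ (by rw [one_pow]) _
  · exfalso
    rcases r2 with r2 | ⟨c, r2⟩
    · have h3 := (hs_jq_inj (r1.symm.trans r2)).1
      push_cast at h3
      field_simp at h3
      have h4 : (4 : ℚ) ≤ ℓ ^ 2 := by nlinarith
      have h5 : (4 : ℚ) ≤ p ^ 2 := by nlinarith
      nlinarith
    · have h3 := (hs_jq_inj (r1.symm.trans r2)).1
      push_cast at h3
      field_simp at h3
      nlinarith

set_option maxHeartbeats 1600000 in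
/-- The embedding `F_{Np} → K((t))` over `x ↦ x(t^p)` sending `j(q^{pd})` to `j(t^d)`. -/
theorem exists_tau (hNK : (N : K) ≠ 0) (hpK : (p : K) ≠ 0) (hpN : ¬ p ∣ N) :
    ∃ τ : modularFunctionFieldFullC K (N * p) →+* LaurentSeries K,
      (∀ (x : LaurentSeries K) (_ : x ∈ modularFunctionFieldFullC K N)
        (h' : x ∈ modularFunctionFieldFullC K (N * p)), τ ⟨x, h'⟩ = qExpand K p x) ∧
      (∀ d : ℕ, d ∣ N → ∀ h : vj K (d * p) ∈ modularFunctionFieldFullC K (N * p),
        τ ⟨vj K (d * p), h⟩ = vj K d) := by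
  have hN : N ≠ 0 := by rintro rfl; simp at hNK
  obtain ⟨v, hv⟩ := exists_primitiveRoot_unit hp.out hpK
  have hNp : N * p ≠ 0 := mul_ne_zero hN hp.out.ne_zero
  have : NeZero N := ⟨hN⟩
  have : NeZero p := ⟨hp.out.ne_zero⟩
  have : NeZero (N * p) := ⟨hNp⟩
  set E := modularFunctionFieldFullC K N with hE
  set E' := modularFunctionFieldFullC K (N * p) with hE'
  have hEE' : E ≤ E' := full_degeneracyC_le K (Dvd.intro p rfl)
  have hj : jqModC K ∈ E := jqModC_mem_full K N
  set jp : LaurentSeries K := qExpand K p (jqModC K) with hjp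
  have hjp' : jp ∈ E' := jqModCd_mem_full K (N * p) (Dvd.intro_left N rfl)
  have hn : jp ∉ E := qExpand_jq_notMem_full hN (roots_of_dvd hNK) hv hpK hpN
  have hint : IsIntegral E jp := isIntegral_of_eval_phi E p hj (eval_phi_jq hv)
  have hmin := minpoly_qExpand_jq hv E hj hn
  let ι : E →+* LaurentSeries K := (qExpand K p).comp (E.val : E →+* LaurentSeries K)
  have hroot : (minpoly E jp).eval₂ ι (jqModC K) = 0 := by
    rw [hmin, ← Polynomial.eval_map, phi_map]
    exact eval_phi_qExpand_jq hv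
  let lft : AdjoinRoot (minpoly E jp) →+* LaurentSeries K := AdjoinRoot.lift ι (jqModC K) hroot
  have hle : E' ≤ (E⟮jp⟯).restrictScalars K := by
    rw [hE', full_mul_prime_of_not_dvd hN (roots_of_dvd hNK) hv hpN, sup_le_iff]
    constructor
    · intro x hx
      exact (E⟮jp⟯).algebraMap_mem ⟨x, hx⟩
    · rw [adjoin_simple_le_iff]
      exact mem_adjoin_simple_self E jp
  let inc : E' →+* E⟮jp⟯ := (E'.val : E' →+* LaurentSeries K).codRestrict E⟮jp⟯ (fun x => hle x.2)
  let τ : E' →+* LaurentSeries K :=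
    lft.comp (((adjoinRootEquivAdjoin E hint).symm : E⟮jp⟯ →+* _).comp inc)
  have hτE : ∀ (x : LaurentSeries K) (hx : x ∈ E) (h' : x ∈ E'), τ ⟨x, h'⟩ = qExpand K p x := by
    intro x hx h'
    have e1 : inc ⟨x, h'⟩ = algebraMap E E⟮jp⟯ ⟨x, hx⟩ := rfl
    show lft ((adjoinRootEquivAdjoin E hint).symm (inc ⟨x, h'⟩)) = _
    rw [e1, AlgEquiv.commutes]
    exact AdjoinRoot.lift_of hroot
  have hτj : τ ⟨jp, hjp'⟩ = jqModC K := by
    have e1 : inc ⟨jp, hjp'⟩ = AdjoinSimple.gen E jp := rfl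
    show lft ((adjoinRootEquivAdjoin E hint).symm (inc ⟨jp, hjp'⟩)) = _
    rw [e1, adjoinRootEquivAdjoin_symm_apply_gen]
    exact AdjoinRoot.lift_root hroot
  -- transfer of a modular relation
  have htrans : ∀ (ℓ : ℕ) [Fact ℓ.Prime] (x y : LaurentSeries K) (hx : x ∈ E') (hy : y ∈ E'),
      (phi ℓ x).eval y = 0 → (phi ℓ (τ ⟨x, hx⟩)).eval (τ ⟨y, hy⟩) = 0 := by
    intro ℓ _ x y hx hy h
    have h1 : (phi ℓ (⟨x, hx⟩ : E')).eval (⟨y, hy⟩ : E') = 0 := by
      apply (E'.val : E' →+* LaurentSeries K).injective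
      rw [map_zero, ← Polynomial.eval₂_hom, ← Polynomial.eval_map, phi_map]
      exact h
    rw [← phi_map, Polynomial.eval_map, Polynomial.eval₂_hom, h1, map_zero]
  refine ⟨τ, hτE, ?_⟩
  intro d
  induction d using induction_on_primes with
  | zero => intro h; exact absurd (Nat.eq_zero_of_zero_dvd h) hN
  | one =>
    intro _ h
    have e : (⟨vj K (1 * p), h⟩ : E') = ⟨jp, hjp'⟩ := by
      apply Subtype.ext
      show vj K (1 * p) = _
      rw [one_mul, vj_eq]
    rw [e, hτj, vj_one]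
  | prime_mul ℓ a hℓ ih =>
    intro hd h
    have : Fact ℓ.Prime := ⟨hℓ⟩
    have hℓK : (ℓ : K) ≠ 0 := by
      intro h0
      apply hNK
      obtain ⟨c, rfl⟩ := hd
      push_cast
      rw [h0, zero_mul, zero_mul]
    obtain ⟨w, hw⟩ := exists_primitiveRoot_unit hℓ hℓK
    have ha : a ∣ N := (Dvd.intro_left ℓ rfl).trans hd
    have ha0 : a ≠ 0 := fun h0 => hN (Nat.eq_zero_of_zero_dvd (h0 ▸ ha))
    have hap : a * p ≠ 0 := mul_ne_zero ha0 hp.out.ne_zero
    have haE : vj K (a * p) ∈ E' := vj_mem_full K hap (Nat.mul_dvd_mul_right ha p)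
    have hℓa0 : ℓ * a ≠ 0 := mul_ne_zero hℓ.ne_zero ha0
    have hℓaE : vj K (ℓ * a) ∈ E := vj_mem_full K hℓa0 hd
    have h1 := htrans ℓ (vj K (a * p)) (vj K (ℓ * a * p)) haE h
      (eval_phi_vj hw hap (by ring))
    rw [ih ha haE] at h1
    have h2 := htrans p (vj K (ℓ * a)) (vj K (ℓ * a * p)) (hEE' hℓaE) h
      (eval_phi_vj hv hℓa0 rfl)
    rw [hτE _ hℓaE, qExpand_vj K p _ hℓa0] at h2
    have h3 : vj K (a * ℓ * p) = vj K (ℓ * a * p) := by rw [mul_comm a ℓ]
    have h2' : (phi p (vj K (a * ℓ * p))).eval (τ ⟨vj K (ℓ * a * p), h⟩) = 0 := by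
      rw [h3]; exact h2
    have h4 := eq_vj_of_roots hpK ha0 hℓK h1 h2'
    exact h4.trans (by rw [mul_comm])

omit [IsAlgClosed K] in
theorem qExpand_algebraMap (c : K) :
    qExpand K p (algebraMap K (LaurentSeries K) c) = algebraMap K (LaurentSeries K) c := by
  have : NeZero p := ⟨hp.out.ne_zero⟩
  exact (qExpandAlgHomC K p).commutes c

theorem dvd_mul_prime_cases {d N p : ℕ} (hp : p.Prime) (hd : d ∣ N * p) :
    d ∣ N ∨ ∃ e, e ∣ N ∧ d = e * p := by
  by_cases h : p ∣ d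
  · obtain ⟨e, rfl⟩ := h
    right
    refine ⟨e, ?_, mul_comm _ _⟩
    rw [mul_comm p e] at hd
    exact Nat.dvd_of_mul_dvd_mul_right hp.pos hd
  · left
    exact (Nat.Coprime.dvd_of_dvd_mul_right ((Nat.Prime.coprime_iff_not_dvd hp).mpr h).symm hd)

/-- **The Atkin–Lehner involution**, existence. -/
theorem exists_w (hNK : (N : K) ≠ 0) (hpK : (p : K) ≠ 0) (hpN : ¬ p ∣ N) :
    ∃ w : modularFunctionFieldFullC K (N * p) ≃ₐ[K] modularFunctionFieldFullC K (N * p),
      (∀ d : ℕ, d ∣ N → ∀ (h : vj K d ∈ modularFunctionFieldFullC K (N * p)),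
        (w ⟨vj K d, h⟩ : LaurentSeries K) = vj K (d * p)) ∧
      (∀ d : ℕ, d ∣ N → ∀ (h : vj K (d * p) ∈ modularFunctionFieldFullC K (N * p)),
        (w ⟨vj K (d * p), h⟩ : LaurentSeries K) = vj K d) := by
  have hN : N ≠ 0 := by rintro rfl; simp at hNK
  have : NeZero p := ⟨hp.out.ne_zero⟩
  have hτ := exists_tau (K := K) hNK hpK hpN
  set E' := modularFunctionFieldFullC K (N * p) with hE'
  obtain ⟨τ, h1, h2⟩ := hτ
  have hd0 : ∀ d, d ∣ N → d ≠ 0 := by
    rintro d hd rfl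
    exact hN (Nat.eq_zero_of_zero_dvd hd)
  have hτ1 : ∀ d : ℕ, d ∣ N → ∀ h : vj K d ∈ E', τ ⟨vj K d, h⟩ = vj K (d * p) := by
    intro d hd h
    rw [h1 _ (vj_mem_full K (hd0 d hd) hd) h, qExpand_vj K p _ (hd0 d hd)]
  have hτK : ∀ c : K, τ (algebraMap K E' c) = algebraMap K (LaurentSeries K) c := by
    intro c
    have h3 := h1 (algebraMap K (LaurentSeries K) c)
      ((modularFunctionFieldFullC K N).algebraMap_mem c) (E'.algebraMap_mem c)
    rw [qExpand_algebraMap] at h3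
    exact h3
  have hmem : ∀ x, τ x ∈ E'.toSubfield := by
    refine ringHom_mem τ E'.toSubfield (fun c => ?_) (fun d hd hd' => ?_)
    · rw [hτK]
      exact E'.algebraMap_mem c
    · rcases dvd_mul_prime_cases hp.out hd with hd1 | ⟨e, he, rfl⟩
      · rw [hτ1 d hd1]
        exact vj_mem_full K (mul_ne_zero hd' hp.out.ne_zero) (Nat.mul_dvd_mul_right hd1 p)
      · rw [h2 e he]
        exact vj_mem_full K (hd0 e he) (he.trans (Dvd.intro p rfl))
  let w₀ : E' →+* E' := τ.codRestrict E' hmem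
  have hw₀ : ∀ x, (w₀ x : LaurentSeries K) = τ x := fun x => rfl
  let w₁ : E' →ₐ[K] E' := { w₀ with
    commutes' := fun c => Subtype.ext (hτK c) }
  have hw₁ : ∀ x, (w₁ x : LaurentSeries K) = τ x := fun x => rfl
  have hw1 : ∀ d : ℕ, d ∣ N → ∀ (h : vj K d ∈ E') (h' : vj K (d * p) ∈ E'),
      w₁ ⟨vj K d, h⟩ = ⟨vj K (d * p), h'⟩ := by
    intro d hd h h'
    apply Subtype.ext
    rw [hw₁, hτ1 d hd h]
  have hw2 : ∀ d : ℕ, d ∣ N → ∀ (h : vj K (d * p) ∈ E') (h' : vj K d ∈ E'),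
      w₁ ⟨vj K (d * p), h⟩ = ⟨vj K d, h'⟩ := by
    intro d hd h h'
    apply Subtype.ext
    rw [hw₁, h2 d hd h]
  have hww : (w₁.comp w₁ : E' →+* E') = RingHom.id E' := by
    refine ringHom_ext (M := E') _ _ (fun c => ?_) (fun d hd hd' => ?_)
    · show w₁ (w₁ (algebraMap K E' c)) = _
      rw [AlgHom.commutes, AlgHom.commutes]
      rfl
    · show w₁ (w₁ _) = _
      rcases dvd_mul_prime_cases hp.out hd with hd1 | ⟨e, he, rfl⟩
      · rw [hw1 d hd1 _ (vj_mem_full K (mul_ne_zero hd' hp.out.ne_zero)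
          (Nat.mul_dvd_mul_right hd1 p)), hw2 d hd1 _ (vj_mem_full K hd' hd)]
        rfl
      · rw [hw2 e he _ (vj_mem_full K (hd0 e he) (he.trans (Dvd.intro p rfl))),
          hw1 e he _ (vj_mem_full K hd' hd)]
        rfl
  have hww' : w₁.comp w₁ = AlgHom.id K E' :=
    AlgHom.ext fun x => DFunLike.congr_fun hww x
  refine ⟨AlgEquiv.ofAlgHom w₁ w₁ hww' hww', ?_, ?_⟩
  · intro d hd h
    exact hτ1 d hd h
  · intro d hd h
    exact h2 d hd h

/-- **The Atkin–Lehner involution** `w_p` on the function field of `X₀(Np)`. -/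
def w (hNK : (N : K) ≠ 0) (hpK : (p : K) ≠ 0) (hpN : ¬ p ∣ N) :
    modularFunctionFieldFullC K (N * p) ≃ₐ[K] modularFunctionFieldFullC K (N * p) :=
  (exists_w hNK hpK hpN).choose

variable (hNK : (N : K) ≠ 0) (hpK : (p : K) ≠ 0) (hpN : ¬ p ∣ N)

theorem w_vj {d : ℕ} (hd : d ∣ N) (h : vj K d ∈ modularFunctionFieldFullC K (N * p)) :
    (w hNK hpK hpN ⟨vj K d, h⟩ : LaurentSeries K) = vj K (d * p) :=
  (exists_w hNK hpK hpN).choose_spec.1 d hd h

theorem w_vj_mul {d : ℕ} (hd : d ∣ N) (h : vj K (d * p) ∈ modularFunctionFieldFullC K (N * p)) :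
    (w hNK hpK hpN ⟨vj K (d * p), h⟩ : LaurentSeries K) = vj K d :=
  (exists_w hNK hpK hpN).choose_spec.2 d hd h

/-- `w f = f(q^p)` for `f ∈ F_N`. -/
theorem w_apply_of_mem {x : LaurentSeries K} (hx : x ∈ modularFunctionFieldFullC K N)
    (h : x ∈ modularFunctionFieldFullC K (N * p)) :
    (w hNK hpK hpN ⟨x, h⟩ : LaurentSeries K) = qExpand K p x := by
  have hN : N ≠ 0 := by rintro rfl; simp at hNK
  have hN0 : NeZero N := ⟨hN⟩
  have hp0 : NeZero p := ⟨hp.out.ne_zero⟩
  have hNp0 : NeZero (N * p) := ⟨mul_ne_zero hN hp.out.ne_zero⟩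
  have hle : modularFunctionFieldFullC K N ≤ modularFunctionFieldFullC K (N * p) :=
    full_degeneracyC_le K (Dvd.intro p rfl)
  let f : modularFunctionFieldFullC K N →+* LaurentSeries K :=
    ((modularFunctionFieldFullC K (N * p)).val : _ →+* LaurentSeries K).comp
      (((w hNK hpK hpN : modularFunctionFieldFullC K (N * p) ≃ₐ[K]
        modularFunctionFieldFullC K (N * p)).toAlgHom.toRingHom).comp
        (IntermediateField.inclusion hle : _ →+* _))
  let g : modularFunctionFieldFullC K N →+* LaurentSeries K :=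
    (qExpand K p).comp ((modularFunctionFieldFullC K N).val : _ →+* LaurentSeries K)
  have hfg : f = g := by
    refine ringHom_ext f g (fun c => ?_) (fun d hd hd0 => ?_)
    · show ((w hNK hpK hpN (algebraMap K _ c) : modularFunctionFieldFullC K (N * p)) :
        LaurentSeries K) = qExpand K p (algebraMap K (LaurentSeries K) c)
      rw [AlgEquiv.commutes, qExpand_algebraMap]
      rfl
    · show ((w hNK hpK hpN ⟨vj K d, _⟩ : modularFunctionFieldFullC K (N * p)) :
        LaurentSeries K) = qExpand K p (vj K d)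
      rw [w_vj hNK hpK hpN hd, qExpand_vj K p d hd0]
  exact DFunLike.congr_fun hfg ⟨x, hx⟩

theorem w_w (x : modularFunctionFieldFullC K (N * p)) :
    w hNK hpK hpN (w hNK hpK hpN x) = x := by
  have hN : N ≠ 0 := by rintro rfl; simp at hNK
  have hd0 : ∀ d, d ∣ N → d ≠ 0 := by
    rintro d hd rfl
    exact hN (Nat.eq_zero_of_zero_dvd hd)
  let f : modularFunctionFieldFullC K (N * p) →+* modularFunctionFieldFullC K (N * p) :=
    ((w hNK hpK hpN).toAlgHom.toRingHom).comp ((w hNK hpK hpN).toAlgHom.toRingHom)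
  have hf : f = RingHom.id _ := by
    refine ringHom_ext f _ (fun c => ?_) (fun d hd hd' => ?_)
    · show w hNK hpK hpN (w hNK hpK hpN (algebraMap K _ c)) = _
      rw [AlgEquiv.commutes, AlgEquiv.commutes]
      rfl
    · show w hNK hpK hpN (w hNK hpK hpN _) = _
      rcases dvd_mul_prime_cases hp.out hd with hd1 | ⟨e, he, rfl⟩
      · have e1 : w hNK hpK hpN ⟨vj K d, vj_mem_full K hd' hd⟩ =
            ⟨vj K (d * p), vj_mem_full K (mul_ne_zero hd' hp.out.ne_zero)
              (Nat.mul_dvd_mul_right hd1 p)⟩ := Subtype.ext (w_vj hNK hpK hpN hd1 _)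
        rw [e1]
        exact Subtype.ext (w_vj_mul hNK hpK hpN hd1 _)
      · have e1 : w hNK hpK hpN ⟨vj K (e * p), vj_mem_full K hd' hd⟩ =
            ⟨vj K e, vj_mem_full K (hd0 e he) (he.trans (Dvd.intro p rfl))⟩ :=
          Subtype.ext (w_vj_mul hNK hpK hpN he _)
        rw [e1]
        exact Subtype.ext (w_vj hNK hpK hpN he _)
  exact DFunLike.congr_fun hf x

/-- `w (f(q^p)) = f` for `f ∈ F_N`. -/
theorem w_qExpand {x : LaurentSeries K} (hx : x ∈ modularFunctionFieldFullC K N)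
    (h : (haveI : NeZero p := ⟨hp.out.ne_zero⟩; qExpand K p x) ∈
      modularFunctionFieldFullC K (N * p)) :
    (w hNK hpK hpN ⟨_, h⟩ : LaurentSeries K) = x := by
  have hN : N ≠ 0 := by rintro rfl; simp at hNK
  have hN0 : NeZero N := ⟨hN⟩
  have hp0 : NeZero p := ⟨hp.out.ne_zero⟩
  have hNp0 : NeZero (N * p) := ⟨mul_ne_zero hN hp.out.ne_zero⟩
  have hle : modularFunctionFieldFullC K N ≤ modularFunctionFieldFullC K (N * p) :=
    full_degeneracyC_le K (Dvd.intro p rfl)
  have e1 : (⟨_, h⟩ : modularFunctionFieldFullC K (N * p)) = w hNK hpK hpN ⟨x, hle hx⟩ :=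
    Subtype.ext (w_apply_of_mem hNK hpK hpN hx (hle hx)).symm
  rw [e1, w_w]

theorem w_symm : (w hNK hpK hpN).symm = w hNK hpK hpN := by
  refine AlgEquiv.ext fun x => ?_
  rw [AlgEquiv.symm_apply_eq, w_w]

end Fermat.Agent.AtkinLehner
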