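import Fermat.Agent.AtkinLehner.Basic

/-!
# `w_p` commutes with maps of coefficients
-/

set_option autoImplicit false

noncomputable section

open ModularCurve Fermat.Agent.ModPoly IntermediateField

namespace Fermat.Agent.AtkinLehner

open Fermat.Agent.ModDeg

variable {K K' : Type*} [Field K] [IsAlgClosed K] [Field K'] [IsAlgClosed K'] {N p : ℕ}
  [hp : Fact p.Prime] (hNK : (N : K) ≠ 0) (hpK : (p : K) ≠ 0) (hpN : ¬ p ∣ N)
  (hNK' : (N : K') ≠ 0) (hpK' : (p : K') ≠ 0) (φ : K →+* K')

omit [IsAlgClosed K] [IsAlgClosed K'] in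
theorem coeffMap_algebraMap (c : K) : coeffMap φ (algebraMap K (LaurentSeries K) c) =
    algebraMap K' (LaurentSeries K') (φ c) := by
  rw [algebraMap_eq_single, algebraMap_eq_single]
  ext n
  rw [coeffMap_coeff]
  rcases eq_or_ne n 0 with rfl | hn
  · simp
  · rw [HahnSeries.coeff_single_of_ne hn, HahnSeries.coeff_single_of_ne hn, map_zero]

/-- `w_p` commutes with maps of coefficients. -/
theorem w_coeffMap (f : modularFunctionFieldFullC K (N * p)) :
    coeffMap φ (w hNK hpK hpN f : LaurentSeries K) =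
      w hNK' hpK' hpN ⟨coeffMap φ (f : LaurentSeries K), coeffMap_mem_full φ f.2⟩ := by
  have hN : N ≠ 0 := by rintro rfl; simp at hNK
  have hd0 : ∀ d, d ∣ N → d ≠ 0 := by
    rintro d hd rfl
    exact hN (Nat.eq_zero_of_zero_dvd hd)
  let c₁ : modularFunctionFieldFullC K (N * p) →+* modularFunctionFieldFullC K' (N * p) :=
    ((coeffMap φ).comp ((modularFunctionFieldFullC K (N * p)).val :
      modularFunctionFieldFullC K (N * p) →+* LaurentSeries K)).codRestrict
      (modularFunctionFieldFullC K' (N * p)) (fun x => coeffMap_mem_full φ x.2)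
  have hc₁ : ∀ x, (c₁ x : LaurentSeries K') = coeffMap φ (x : LaurentSeries K) := fun x => rfl
  have h : c₁.comp ((w hNK hpK hpN).toAlgHom.toRingHom) =
      ((w hNK' hpK' hpN).toAlgHom.toRingHom).comp c₁ := by
    refine ringHom_ext _ _ (fun c => ?_) (fun d hd hd' => ?_)
    · show c₁ (w hNK hpK hpN (algebraMap K _ c)) = w hNK' hpK' hpN (c₁ (algebraMap K _ c))
      rw [AlgEquiv.commutes]
      have h1 : c₁ (algebraMap K _ c) = algebraMap K' _ (φ c) :=
        Subtype.ext (coeffMap_algebraMap φ c)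
      rw [h1, AlgEquiv.commutes]
    · show c₁ (w hNK hpK hpN _) = w hNK' hpK' hpN (c₁ _)
      have h1 : c₁ ⟨vj K d, vj_mem_full K hd' hd⟩ = ⟨vj K' d, vj_mem_full K' hd' hd⟩ :=
        Subtype.ext (coeffMap_vj φ d)
      rw [h1]
      apply Subtype.ext
      rw [hc₁]
      rcases dvd_mul_prime_cases hp.out hd with hd1 | ⟨e, he, rfl⟩
      · rw [w_vj hNK hpK hpN hd1, w_vj hNK' hpK' hpN hd1, coeffMap_vj]
      · rw [w_vj_mul hNK hpK hpN he, w_vj_mul hNK' hpK' hpN he, coeffMap_vj]
  have h2 := congrArg Subtype.val (DFunLike.congr_fun h f)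
  exact h2

end Fermat.Agent.AtkinLehner
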