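import Fermat.Agent.AtkinLehner.Basic
import Fermat.Agent.HeckeRed.Degrees

/-!
# Norm and trace from `F_{Np}` to `F_N` in terms of expansions

Every homomorphism `F_{Np} → K((q^{1/p}))` over `F_N` is either the identity or
`f ↦ (w f)(ζ^b q^{1/p})`.  In the variable `t = q^{1/p}`: `conj p none f = f(t^p)`,
`conj p (some b) f = (w f)(v^b t)`.
-/

set_option autoImplicit false

noncomputable section

open ModularCurve AlgebraicCurve Fermat.Agent.ModPoly Polynomial IntermediateField

namespace Fermat.Agent.AtkinLehner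

open Fermat.Agent.ModDeg Fermat.Agent.HeckeRed

section General

variable {F F' Ω T : Type*} [Field F] [Field F'] [Field Ω] [Algebra F F'] [Fintype T]
  [FiniteDimensional F F'] (ι : F →+* Ω) (σ : T → F' →+* Ω)

/-- If there are `[F' : F]` distinct extensions of `ι : F → Ω` to `F'`, then `F'/F` is separable
and, for every embedding of `Ω` in an algebraically closed field, these are all the
extensions. -/
theorem exists_equiv_embeddings (hσ : ∀ i x, σ i (algebraMap F F' x) = ι x)
    (hinj : Function.Injective σ) (hcard : Fintype.card T = Module.finrank F F') :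
    letI : Algebra F (AlgebraicClosure Ω) := ((algebraMap Ω (AlgebraicClosure Ω)).comp ι).toAlgebra
    Algebra.IsSeparable F F' ∧
      ∃ e : T ≃ (F' →ₐ[F] AlgebraicClosure Ω), ∀ i x,
        e i x = algebraMap Ω (AlgebraicClosure Ω) (σ i x) := by
  letI : Algebra F (AlgebraicClosure Ω) := ((algebraMap Ω (AlgebraicClosure Ω)).comp ι).toAlgebra
  let e : T → (F' →ₐ[F] AlgebraicClosure Ω) := fun i =>
    { (algebraMap Ω (AlgebraicClosure Ω)).comp (σ i) with
      commutes' := fun x => by
        show algebraMap Ω (AlgebraicClosure Ω) (σ i (algebraMap F F' x)) = _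
        rw [hσ]
        rfl }
  have he : ∀ i x, e i x = algebraMap Ω (AlgebraicClosure Ω) (σ i x) := fun i x => rfl
  have heinj : Function.Injective e := by
    intro i j hij
    apply hinj
    ext x
    apply (algebraMap Ω (AlgebraicClosure Ω)).injective
    rw [← he, ← he, hij]
  have h1 : Field.finSepDegree F F' = Fintype.card (F' →ₐ[F] AlgebraicClosure Ω) := by
    rw [Field.finSepDegree_eq_of_isAlgClosed F F' (AlgebraicClosure Ω), Nat.card_eq_fintype_card]
  have h2 : Fintype.card T ≤ Fintype.card (F' →ₐ[F] AlgebraicClosure Ω) :=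
    Fintype.card_le_of_injective e heinj
  have h3 : Field.finSepDegree F F' ≤ Module.finrank F F' :=
    Field.finSepDegree_le_finrank F F'
  have h4 : Field.finSepDegree F F' = Module.finrank F F' := by
    apply le_antisymm h3
    rw [h1, ← hcard]
    exact h2
  refine ⟨(Field.finSepDegree_eq_finrank_iff F F').mp h4, ?_⟩
  have hbij : Function.Bijective e := by
    rw [Fintype.bijective_iff_injective_and_card]
    refine ⟨heinj, ?_⟩
    rw [← h1, h4, hcard]
  exact ⟨Equiv.ofBijective e hbij, he⟩

/-- the norm is the product over `[F' : F]` distinct conjugates. -/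
theorem norm_eq_prod (hσ : ∀ i x, σ i (algebraMap F F' x) = ι x)
    (hinj : Function.Injective σ) (hcard : Fintype.card T = Module.finrank F F') (x : F') :
    ι (Algebra.norm F x) = ∏ i, σ i x := by
  letI : Algebra F (AlgebraicClosure Ω) := ((algebraMap Ω (AlgebraicClosure Ω)).comp ι).toAlgebra
  obtain ⟨hsep, e, he⟩ := exists_equiv_embeddings ι σ hσ hinj hcard
  apply (algebraMap Ω (AlgebraicClosure Ω)).injective
  have h1 := Algebra.norm_eq_prod_embeddings F (AlgebraicClosure Ω) x
  rw [map_prod]
  have h2 : algebraMap Ω (AlgebraicClosure Ω) (ι (Algebra.norm F x)) =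
      algebraMap F (AlgebraicClosure Ω) (Algebra.norm F x) := rfl
  rw [h2, h1, ← e.prod_comp]
  exact Finset.prod_congr rfl fun i _ => he i x

/-- the trace is the sum over `[F' : F]` distinct conjugates. -/
theorem trace_eq_sum (hσ : ∀ i x, σ i (algebraMap F F' x) = ι x)
    (hinj : Function.Injective σ) (hcard : Fintype.card T = Module.finrank F F') (x : F') :
    ι (Algebra.trace F F' x) = ∑ i, σ i x := by
  letI : Algebra F (AlgebraicClosure Ω) := ((algebraMap Ω (AlgebraicClosure Ω)).comp ι).toAlgebra
  obtain ⟨hsep, e, he⟩ := exists_equiv_embeddings ι σ hσ hinj hcard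
  apply (algebraMap Ω (AlgebraicClosure Ω)).injective
  have h1 := trace_eq_sum_embeddings (K := F) (L := F') (AlgebraicClosure Ω) (x := x)
  rw [map_sum]
  have h2 : algebraMap Ω (AlgebraicClosure Ω) (ι (Algebra.trace F F' x)) =
      algebraMap F (AlgebraicClosure Ω) (Algebra.trace F F' x) := rfl
  rw [h2, h1, ← e.sum_comp]
  exact Finset.sum_congr rfl fun i _ => he i x

/-- the characteristic polynomial in terms of the conjugates. -/
theorem charpoly_eq_prod [Infinite F] (hσ : ∀ i x, σ i (algebraMap F F' x) = ι x)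
    (hinj : Function.Injective σ) (hcard : Fintype.card T = Module.finrank F F') (x : F') :
    ((Algebra.lmul F F' x).charpoly).map ι = ∏ i, (X - C (σ i x)) := by
  apply Polynomial.eq_of_infinite_eval_eq
  have hinf : (Set.range ι).Infinite := Set.infinite_range_of_injective ι.injective
  refine hinf.mono ?_
  rintro _ ⟨c, rfl⟩
  rw [Set.mem_ofPred_eq, Polynomial.eval_map, Polynomial.eval₂_hom, LinearMap.eval_charpoly]
  have h1 : algebraMap F (Module.End F F') c - Algebra.lmul F F' x =
      Algebra.lmul F F' (algebraMap F F' c - x) := by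
    rw [map_sub]
    congr 1
    ext y
    simp [Algebra.smul_def]
  rw [h1]
  have h2 := norm_eq_prod ι σ hσ hinj hcard (algebraMap F F' c - x)
  rw [Algebra.norm_apply] at h2
  rw [h2, Polynomial.eval_prod]
  refine Finset.prod_congr rfl fun i _ => ?_
  rw [map_sub, hσ, Polynomial.eval_sub, Polynomial.eval_X, Polynomial.eval_C]

end General

section Along

variable {K F F' : Type*} [Field K] [Field F] [Field F'] [Algebra K F] [Algebra K F']

/-- the characteristic polynomial along a finite homomorphism. -/
def charpolyAlong (ψ : F →ₐ[K] F') (hfin : FiniteAlong K ψ) (x : F') : F[X] :=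
  letI := algebraAlong ψ
  haveI : Module.Finite F F' := hfin
  (Algebra.lmul F F' x).charpoly

/-- the trace along a homomorphism. -/
def traceAlong (ψ : F →ₐ[K] F') (x : F') : F :=
  letI := algebraAlong ψ
  Algebra.trace F F' x

end Along

variable {K : Type*} [Field K] [IsAlgClosed K] {N p : ℕ} [hp : Fact p.Prime]

section Conj

variable (hNK : (N : K) ≠ 0) (hpK : (p : K) ≠ 0) (hpN : ¬ p ∣ N) (v : Kˣ)

/-- The `p + 1` conjugates over `F_N` of an element `f` of `F_{Np}`, as Laurent series in
`t = q^{1/p}`: `f(t^p)` and `(w f)(v^b t)`. -/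
def conj : Option (Fin p) → modularFunctionFieldFullC K (N * p) →+* LaurentSeries K
  | none =>
    haveI : NeZero p := ⟨hp.out.ne_zero⟩
    (qExpand K p).comp
      ((modularFunctionFieldFullC K (N * p)).val : _ →+* LaurentSeries K)
  | some b => (twist (v ^ (b : ℕ))).comp
      (((modularFunctionFieldFullC K (N * p)).val : _ →+* LaurentSeries K).comp
        (w hNK hpK hpN).toAlgHom.toRingHom)

theorem conj_none (f : modularFunctionFieldFullC K (N * p)) :
    haveI : NeZero p := ⟨hp.out.ne_zero⟩
    conj hNK hpK hpN v none f = qExpand K p (f : LaurentSeries K) := rfl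

theorem conj_some (b : Fin p) (f : modularFunctionFieldFullC K (N * p)) :
    conj hNK hpK hpN v (some b) f =
      twist (v ^ (b : ℕ)) (w hNK hpK hpN f : LaurentSeries K) := rfl

variable {v} (hv : IsPrimitiveRoot v p)

include hv in
theorem conj_of_mem (i : Option (Fin p)) {x : LaurentSeries K}
    (hx : x ∈ modularFunctionFieldFullC K N) (h : x ∈ modularFunctionFieldFullC K (N * p)) :
    haveI : NeZero p := ⟨hp.out.ne_zero⟩
    conj hNK hpK hpN v i ⟨x, h⟩ = qExpand K p x := by
  have hp0 : NeZero p := ⟨hp.out.ne_zero⟩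
  rcases i with _ | b
  · rfl
  · rw [conj_some, w_apply_of_mem hNK hpK hpN hx h,
      twist_qExpand_of_pow_eq_one]
    rw [← pow_mul, mul_comm, pow_mul, hv.pow_eq_one, one_pow]

include hv in
theorem conj_injective : Function.Injective (conj hNK hpK hpN v) := by
  have hN : N ≠ 0 := by rintro rfl; simp at hNK
  have hp0 : NeZero p := ⟨hp.out.ne_zero⟩
  have hmem : vj K p ∈ modularFunctionFieldFullC K (N * p) :=
    vj_mem_full K hp.out.ne_zero (Dvd.intro_left N rfl)
  have hmem' : vj K (1 * p) ∈ modularFunctionFieldFullC K (N * p) := by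
    rw [one_mul]; exact hmem
  have hev : ∀ i, conj hNK hpK hpN v i ⟨vj K (1 * p), hmem'⟩ = jT K p v i := by
    intro i
    rcases i with _ | b
    · rw [conj_none]
      simp only [one_mul, vj_eq]
      rfl
    · rw [conj_some, w_vj_mul hNK hpK hpN (one_dvd N) hmem', vj_one]
      rfl
  intro i j hij
  have h1 : jT K p v i = jT K p v j := by rw [← hev, ← hev, hij]
  have h2 := hs_jT_injective (K := K) (r := 1) (hr := one_pos) (p := p) (v := v) (η := 1) hv
  exact h2 (show hs ((1 : ℚ) / p) (pos_div_prime one_pos p) 1 (jT K p v i) =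
    hs ((1 : ℚ) / p) (pos_div_prime one_pos p) 1 (jT K p v j) by rw [h1])

variable [hN0 : NeZero N]

omit [IsAlgClosed K] in
/-- `F_N ⊆ F_{Np}`. -/
theorem full_le_mul : modularFunctionFieldFullC K N ≤ modularFunctionFieldFullC K (N * p) :=
  haveI : NeZero (N * p) := ⟨mul_ne_zero (NeZero.ne N) hp.out.ne_zero⟩
  full_degeneracyC_le K (Dvd.intro p rfl)

variable {E E' : IntermediateField K (LaurentSeries K)}
  (hE : E = modularFunctionFieldFullC K N) (hE' : E' = modularFunctionFieldFullC K (N * p))
  (α β : E →ₐ[K] E') (hα : ∀ x, (α x : LaurentSeries K) = x)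
  (hβ : ∀ x, (β x : LaurentSeries K) =
    (haveI : NeZero p := ⟨hp.out.ne_zero⟩; qExpand K p (x : LaurentSeries K)))

include hE hE' hα hNK hpK hpN in
theorem finrankAlong_alpha_eq : finrankAlong K α = p + 1 := by
  have hNp : ((N * p : ℕ) : K) ≠ 0 := by
    rw [Nat.cast_mul]; exact mul_ne_zero hNK hpK
  have h1 := finrankAlong_alpha hE hE' α hα hNp
  rw [psi_mul_prime_of_not_dvd hp.out hpN] at h1
  have h2 : 0 < dedekindPsi N := HeckeRed.dedekindPsi_pos N
  have h3 : finrankAlong K α * dedekindPsi N = (p + 1) * dedekindPsi N := by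
    rw [h1]
  exact Nat.eq_of_mul_eq_mul_right h2 h3

include hE hE' hα hNK hpK hpN in
theorem finiteAlong_alpha : FiniteAlong K α := by
  have h := finrankAlong_alpha_eq hNK hpK hpN hE hE' α hα
  letI := algebraAlong α
  have h' : Module.finrank E E' = p + 1 := h
  show Module.Finite E E'
  exact Module.finite_of_finrank_pos (by rw [h']; omega)

include hE hE' hα hv in
/-- all symmetric functions of `f` over `F_N`: the characteristic polynomial. -/
theorem charpolyAlong_alpha (hfin : FiniteAlong K α) (f : E') :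
    haveI : NeZero p := ⟨hp.out.ne_zero⟩
    (charpolyAlong α hfin f).map
        ((qExpand K p).comp (E.val : E →+* LaurentSeries K)) =
      ∏ i, (X - C (conj hNK hpK hpN v i ⟨f, hE' ▸ f.2⟩)) := by
  have hp0 : NeZero p := ⟨hp.out.ne_zero⟩
  subst hE hE'
  letI := algebraAlong α
  have hfin : Module.Finite (modularFunctionFieldFullC K N) (modularFunctionFieldFullC K (N * p)) :=
    hfin
  have hinf : Infinite (modularFunctionFieldFullC K N) :=
    Infinite.of_injective _ (algebraMap K (modularFunctionFieldFullC K N)).injective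
  refine charpoly_eq_prod _ (conj hNK hpK hpN v) (fun i x => ?_)
    (conj_injective hNK hpK hpN hv) ?_ f
  · show conj hNK hpK hpN v i (α x) = qExpand K p (x : LaurentSeries K)
    have e : α x = ⟨(x : LaurentSeries K), by rw [← hα]; exact (α x).2⟩ := Subtype.ext (hα x)
    rw [e]
    exact conj_of_mem hNK hpK hpN hv i x.2 _
  · rw [Fintype.card_option, Fintype.card_fin]
    exact (finrankAlong_alpha_eq hNK hpK hpN rfl rfl α hα).symm

include hE hE' hα hv in
/-- **Norm formula** for `F_{Np} / F_N`: the norm of `f` is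
`f(q) ∏_b (w f)(ζ^b q^{1/p})`, in terms of `t = q^{1/p}`. -/
theorem normAlong_alpha (f : E') :
    haveI : NeZero p := ⟨hp.out.ne_zero⟩
    qExpand K p ((normAlong α f : E) : LaurentSeries K) =
      ∏ i, conj hNK hpK hpN v i ⟨f, hE' ▸ f.2⟩ := by
  have hp0 : NeZero p := ⟨hp.out.ne_zero⟩
  subst hE hE'
  letI := algebraAlong α
  have hfin : Module.Finite (modularFunctionFieldFullC K N) (modularFunctionFieldFullC K (N * p)) :=
    finiteAlong_alpha hNK hpK hpN rfl rfl α hα
  refine norm_eq_prod ((qExpand K p).comp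
    ((modularFunctionFieldFullC K N).val : modularFunctionFieldFullC K N →+* LaurentSeries K)) (conj hNK hpK hpN v)
    (fun i x => ?_) (conj_injective hNK hpK hpN hv) ?_ f
  · show conj hNK hpK hpN v i (α x) = qExpand K p (x : LaurentSeries K)
    have e : α x = ⟨(x : LaurentSeries K), by rw [← hα]; exact (α x).2⟩ := Subtype.ext (hα x)
    rw [e]
    exact conj_of_mem hNK hpK hpN hv i x.2 _
  · rw [Fintype.card_option, Fintype.card_fin]
    exact (finrankAlong_alpha_eq hNK hpK hpN rfl rfl α hα).symm

include hE hE' hα hv in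
/-- The norm formula, expanded. -/
theorem normAlong_alpha' (f : E') :
    haveI : NeZero p := ⟨hp.out.ne_zero⟩
    qExpand K p ((normAlong α f : E) : LaurentSeries K) =
      qExpand K p (f : LaurentSeries K) *
        ∏ b : Fin p, twist (v ^ (b : ℕ)) (w hNK hpK hpN ⟨f, hE' ▸ f.2⟩ : LaurentSeries K) := by
  have hp0 : NeZero p := ⟨hp.out.ne_zero⟩
  rw [normAlong_alpha hNK hpK hpN hv hE hE' α hα, Fintype.prod_option]
  rfl

include hE hE' hα hv in
/-- **Trace formula** for `F_{Np} / F_N`. -/
theorem traceAlong_alpha (f : E') :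
    haveI : NeZero p := ⟨hp.out.ne_zero⟩
    qExpand K p ((traceAlong α f : E) : LaurentSeries K) =
      ∑ i, conj hNK hpK hpN v i ⟨f, hE' ▸ f.2⟩ := by
  have hp0 : NeZero p := ⟨hp.out.ne_zero⟩
  subst hE hE'
  letI := algebraAlong α
  have hfin : Module.Finite (modularFunctionFieldFullC K N) (modularFunctionFieldFullC K (N * p)) :=
    finiteAlong_alpha hNK hpK hpN rfl rfl α hα
  refine trace_eq_sum ((qExpand K p).comp
    ((modularFunctionFieldFullC K N).val : modularFunctionFieldFullC K N →+* LaurentSeries K)) (conj hNK hpK hpN v)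
    (fun i x => ?_) (conj_injective hNK hpK hpN hv) ?_ f
  · show conj hNK hpK hpN v i (α x) = qExpand K p (x : LaurentSeries K)
    have e : α x = ⟨(x : LaurentSeries K), by rw [← hα]; exact (α x).2⟩ := Subtype.ext (hα x)
    rw [e]
    exact conj_of_mem hNK hpK hpN hv i x.2 _
  · rw [Fintype.card_option, Fintype.card_fin]
    exact (finrankAlong_alpha_eq hNK hpK hpN rfl rfl α hα).symm

omit hN0 in
/-- `β = w ∘ α`. -/
theorem beta_eq (α β : modularFunctionFieldFullC K N →ₐ[K] modularFunctionFieldFullC K (N * p))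
    (hα : ∀ x, (α x : LaurentSeries K) = x)
    (hβ : ∀ x, (β x : LaurentSeries K) =
      (haveI : NeZero p := ⟨hp.out.ne_zero⟩; qExpand K p (x : LaurentSeries K))) (x) :
    β x = w hNK hpK hpN (α x) := by
  have hp0 : NeZero p := ⟨hp.out.ne_zero⟩
  apply Subtype.ext
  have e : α x = ⟨(x : LaurentSeries K), by rw [← hα]; exact (α x).2⟩ := Subtype.ext (hα x)
  rw [hβ, e, w_apply_of_mem hNK hpK hpN x.2]

omit hN0 in
/-- The norm along `β = w ∘ α` is the norm along `α` of `w f`. -/
theorem normAlong_beta (α β : modularFunctionFieldFullC K N →ₐ[K] modularFunctionFieldFullC K (N * p))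
    (hα : ∀ x, (α x : LaurentSeries K) = x)
    (hβ : ∀ x, (β x : LaurentSeries K) =
      (haveI : NeZero p := ⟨hp.out.ne_zero⟩; qExpand K p (x : LaurentSeries K)))
    (f : modularFunctionFieldFullC K (N * p)) :
    normAlong β f = normAlong α (w hNK hpK hpN f) := by
  have hβα := beta_eq hNK hpK hpN α β hα hβ
  have key := @Algebra.norm_eq_of_equiv_equiv (modularFunctionFieldFullC K N)
    (modularFunctionFieldFullC K (N * p)) (modularFunctionFieldFullC K N)
    (modularFunctionFieldFullC K (N * p)) _ _ _ _ (algebraAlong β) (algebraAlong α)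
    (RingEquiv.refl _) (w hNK hpK hpN).toRingEquiv (by
      refine RingHom.ext fun x => ?_
      show α x = w hNK hpK hpN (β x)
      rw [hβα, w_w]) f
  exact key

end Conj

end Fermat.Agent.AtkinLehner
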